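import Fermat.Agent.S37.Core.Leaves
import Fermat.Agent.S37.H339.LeafH1

/-!
# S37 BOARD v3, hand-in of leaf D4 (helper339): `h1Leaf : Fermat.Agent.S37.Core.H1Leaf`
-/

set_option autoImplicit false
set_option synthInstance.maxHeartbeats 400000

namespace Fermat.Agent.S37.H339

/-- **LEAF D4**, exact frozen type `Core.H1Leaf` (`Core/Leaves.lean`). -/
theorem h1Leaf : Fermat.Agent.S37.Core.H1Leaf :=
  fun M ℓ _ hℓ hℓM A hA x S hx X hX G hGx hGxk =>
    leaf_H1 M ℓ hℓ hℓM A hA x S hx X hX.coeff_neg_one hX.coe_eq G hGx hGxk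

end Fermat.Agent.S37.H339
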