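import Fermat.Agent.S37.Core.AssemblePull
import Fermat.Agent.S37.H818.Transfer
import Fermat.Agent.Lib.FF398.Hecke

/-!
# S37 BOARD node [PULL] (helper339): `PullData N (N * a) ℓ` for `(ℓ, a) = (3, 2), (2, 3)`

Exact node statement of `Fermat.Agent.S37.Board.node_pull` (origin/helper37 `Core/Skeleton3.lean`),
assembled from helper818's landed level transfer (`S37/H818`) and helper398's function-field
inputs (`Lib/FF398`).
-/

set_option autoImplicit false

noncomputable section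

namespace Fermat.Agent.S37.H339

open ModularCurve AlgebraicCurve Fermat.Agent.S37.Core Fermat.Agent.S37.H818

/-- the transfer inputs of helper818 hold for `(ℓ, a) = (3, 2), (2, 3)` -/
theorem transferInputs (N a ℓ : ℕ) [NeZero N] [NeZero a] [NeZero ℓ] (hℓ : ℓ.Prime)
    (ha : (ℓ = 3 ∧ a = 2) ∨ (ℓ = 2 ∧ a = 3)) (haN : ¬ a ∣ N) (hℓN : ¬ ℓ ∣ N) :
    TransferInputs N a ℓ := by
  have hap : a.Prime := by
    rcases ha with ⟨-, rfl⟩ | ⟨-, rfl⟩ <;> norm_num
  have hℓa : ¬ ℓ ∣ a := by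
    rcases ha with ⟨rfl, rfl⟩ | ⟨rfl, rfl⟩ <;> norm_num
  refine ⟨hℓ, hap, hℓN, hℓa, Fermat.Agent.Lib.FF398.heckeInputsAlong N ℓ,
    Fermat.Agent.Lib.FF398.heckeInputsAlong (N * a) ℓ,
    Fermat.Agent.Lib.FF398.normFormulaAlong_alpha N a, ?_⟩
  rw [finrankAlong_heckeAlphaBar N a hap haN]
  rcases ha with ⟨rfl, rfl⟩ | ⟨rfl, rfl⟩
  · exact ⟨1, by norm_num⟩
  · exact ⟨2, by norm_num⟩

/-- **NODE [PULL].** -/
theorem node_pull (N a ℓ : ℕ) [NeZero N] [NeZero a] [NeZero ℓ] (hℓ : ℓ.Prime)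
    (ha : (ℓ = 3 ∧ a = 2) ∨ (ℓ = 2 ∧ a = 3)) (haN : ¬ a ∣ N) (hℓN : ¬ ℓ ∣ N) :
    Nonempty (PullData N (N * a) ℓ) := by
  have T := transferInputs N a ℓ hℓ ha haN hℓN
  refine ⟨{ pull := T.pullback
            galois := T.pullback_galois
            inj_torsion := fun m hm x hmx hx =>
              T.pullback_injective_of_coprime m
                (Nat.Coprime.symm ((Nat.Prime.coprime_iff_not_dvd hℓ).mpr hm)) x hmx hx
            hecke := fun x => T.pullback_hecke x }⟩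

end Fermat.Agent.S37.H339
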